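import Mathlib
import Fermat.Prelude.Def_AlgebraicCurve_Repartitions
import Fermat.Prelude.Def_AlgebraicCurve_IsCurveOver

/-!
Basic facts on places of a function field (in the Prelude's language).
-/

set_option autoImplicit false

open AlgebraicCurve WithZero IsLocalRing

namespace Fermat.Agent.RRC

variable {K F : Type*} [Field K] [Field F] [Algebra K F]

theorem lt_exp_iff_le {x : ℤᵐ⁰} {n : ℤ} : x < exp n ↔ x ≤ exp (n - 1) := by
  rcases eq_or_ne x 0 with rfl | hx
  · simp [WithZero.pos_iff_ne_zero]
  · obtain ⟨m, rfl⟩ : ∃ m : ℤ, x = exp m := ⟨log x, (exp_log hx).symm⟩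
    rw [exp_lt_exp, exp_le_exp]
    omega

section place

variable (v : Place K F)

theorem mem_iff {f : F} : f ∈ v.toValuationSubring ↔ v.adicValuation f ≤ 1 := by
  refine ⟨v.adicValuation_le_one_of_mem, fun h => ?_⟩
  by_contra hf
  have hf0 : f ≠ 0 := fun h0 => hf (h0 ▸ v.toValuationSubring.zero_mem)
  have hfi : f⁻¹ ∈ v.toValuationSubring := (v.toValuationSubring.mem_or_inv_mem f).resolve_left hf
  have h1 : v.adicValuation f⁻¹ ≤ 1 := v.adicValuation_le_one_of_mem hfi
  have h2 : v.adicValuation ((⟨f⁻¹, hfi⟩ : v.toValuationSubring) : F) = 1 := by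
    show v.adicValuation f⁻¹ = 1
    refine le_antisymm h1 ?_
    rw [map_inv₀]
    exact one_le_inv₀ (zero_lt_iff.mpr (v.adicValuation_ne_zero hf0)) |>.mpr h
  rw [v.adicValuation_coe_eq_one_iff] at h2
  obtain ⟨u, hu⟩ := h2
  apply hf
  have h3 : (u : v.toValuationSubring) * (↑(u⁻¹) : v.toValuationSubring) = 1 := u.mul_inv
  have h4 : f⁻¹ * ((↑(u⁻¹) : v.toValuationSubring) : F) = 1 := by
    have := congrArg (Subtype.val) h3
    rw [hu] at this
    simpa using this
  have h5 : ((↑(u⁻¹) : v.toValuationSubring) : F) = f := by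
    field_simp at h4
    exact h4
  rw [← h5]
  exact Subtype.property _

theorem mem_maximalIdeal_iff (a : v.toValuationSubring) :
    a ∈ maximalIdeal v.toValuationSubring ↔ v.adicValuation (a : F) < 1 := by
  rw [mem_maximalIdeal, mem_nonunits_iff, ← v.adicValuation_coe_eq_one_iff]
  constructor
  · intro h
    exact lt_of_le_of_ne (v.adicValuation_le_one_of_mem a.2) h
  · intro h
    exact h.ne

theorem exists_unif : ∃ t : F, v.adicValuation t = exp (-1 : ℤ) := by
  obtain ⟨π, hπ⟩ := IsDiscreteValuationRing.exists_irreducible v.toValuationSubring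
  exact ⟨π, v.adicValuation_coe_irreducible hπ⟩

/-- a uniformizer at `v` -/
noncomputable def unif : F := (exists_unif v).choose

theorem val_unif : v.adicValuation (unif v) = exp (-1 : ℤ) := (exists_unif v).choose_spec

theorem unif_ne_zero : unif v ≠ 0 := by
  intro h
  have := val_unif v
  rw [h, map_zero] at this
  exact exp_ne_zero this.symm

theorem val_unif_zpow (n : ℤ) : v.adicValuation (unif v ^ n) = exp (-n) := by
  rw [map_zpow₀, val_unif, ← exp_zsmul, smul_eq_mul]
  congr 1
  ring

theorem val_eq_exp {f : F} (hf : f ≠ 0) : v.adicValuation f = exp (-v.ord f) :=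
  v.adicValuation_eq_exp_neg_ord hf

theorem ord_eq_iff {f : F} (hf : f ≠ 0) {n : ℤ} :
    v.ord f = n ↔ v.adicValuation f = exp (-n) := by
  rw [val_eq_exp v hf, exp_inj, neg_inj]

theorem val_algebraMap {a : K} (ha : a ≠ 0) : v.adicValuation (algebraMap K F a) = 1 := by
  refine le_antisymm (v.adicValuation_algebraMap_le_one a) ?_
  have h := v.adicValuation_algebraMap_le_one a⁻¹
  rw [map_inv₀, map_inv₀] at h
  have h0 : v.adicValuation (algebraMap K F a) ≠ 0 :=
    v.adicValuation_ne_zero (by simpa using ha)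
  exact (inv_le_one₀ (zero_lt_iff.mpr h0)).mp h

@[simp] theorem ord_algebraMap (a : K) : v.ord (algebraMap K F a) = 0 := by
  rcases eq_or_ne a 0 with rfl | ha
  · simp
  · rw [ord_eq_iff v (by simpa using ha)]
    simp [val_algebraMap v ha]

theorem ord_unif : v.ord (unif v) = 1 := by
  rw [ord_eq_iff v (unif_ne_zero v), val_unif]

theorem ord_neg (f : F) : v.ord (-f) = v.ord f := by
  simp [Place.ord, Valuation.map_neg]

theorem min_ord_le_ord_add {f g : F} (h : f + g ≠ 0) (hf : f ≠ 0) (hg : g ≠ 0) :
    min (v.ord f) (v.ord g) ≤ v.ord (f + g) := by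
  have h1 := v.adicValuation.map_add f g
  rw [val_eq_exp v h, val_eq_exp v hf, val_eq_exp v hg] at h1
  rcases le_total (v.ord f) (v.ord g) with h2 | h2
  · rw [max_eq_left (exp_le_exp.mpr (by omega)), exp_le_exp] at h1
    rw [min_eq_left h2]; omega
  · rw [max_eq_right (exp_le_exp.mpr (by omega)), exp_le_exp] at h1
    rw [min_eq_right h2]; omega

/-- elements with pole order at most `n` at `v` -/
def localL (n : ℤ) : Submodule K F where
  carrier := {f | v.adicValuation f ≤ exp n}
  zero_mem' := by simp
  add_mem' := by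
    intro f g (hf : v.adicValuation f ≤ exp n) (hg : v.adicValuation g ≤ exp n)
    exact (Valuation.map_add v.adicValuation f g).trans (max_le hf hg)
  smul_mem' := by
    intro c f (hf : v.adicValuation f ≤ exp n)
    show v.adicValuation (c • f) ≤ exp n
    rw [Algebra.smul_def, map_mul]
    exact (mul_le_of_le_one_left' (v.adicValuation_algebraMap_le_one c)).trans hf

theorem mem_localL {n : ℤ} {f : F} : f ∈ localL v n ↔ v.adicValuation f ≤ exp n := Iff.rfl

theorem mem_localL_iff_ord {n : ℤ} {f : F} : f ∈ localL v n ↔ f = 0 ∨ -n ≤ v.ord f :=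
  v.adicValuation_le_exp_iff

theorem localL_mono {m n : ℤ} (h : m ≤ n) : localL v m ≤ localL v n :=
  fun _ hf => le_trans hf (exp_le_exp.mpr h)

theorem mul_mem_localL {m n : ℤ} {f g : F} (hf : f ∈ localL v m) (hg : g ∈ localL v n) :
    f * g ∈ localL v (m + n) := by
  rw [mem_localL, map_mul, exp_add]
  exact mul_le_mul' hf hg

end place

/-- every place is rational -/
class RatPlaces (K F : Type*) [Field K] [Field F] [Algebra K F] : Prop where
  deg_eq_one : ∀ v : Place K F, v.deg = 1

instance [IsAlgClosed K] [IsCurveOver K F] : RatPlaces K F :=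
  ⟨IsCurveOver.deg_eq_one_of_isAlgClosed⟩

section rat

variable [RatPlaces K F] (v : Place K F)

theorem residue_bijective : Function.Bijective (algebraMap K v.ResidueField) := by
  refine ⟨(algebraMap K v.ResidueField).injective, fun x => ?_⟩
  have h1 : Module.finrank K v.ResidueField = 1 := RatPlaces.deg_eq_one v
  rw [finrank_eq_one_iff_of_nonzero' (1 : v.ResidueField) one_ne_zero] at h1
  obtain ⟨c, hc⟩ := h1 x
  exact ⟨c, by rw [← hc, Algebra.smul_def, mul_one]⟩

/-- the residue homomorphism `O_v → K` at a rational place -/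
noncomputable def resHom : v.toValuationSubring →ₐ[K] K :=
  ((AlgEquiv.ofBijective (Algebra.ofId K v.ResidueField) (residue_bijective v)).symm :
      v.ResidueField →ₐ[K] K).comp
    { toRingHom := IsLocalRing.residue v.toValuationSubring
      commutes' := fun _ => rfl }

theorem resHom_eq_zero_iff (a : v.toValuationSubring) :
    resHom v a = 0 ↔ v.adicValuation (a : F) < 1 := by
  rw [← mem_maximalIdeal_iff, ← IsLocalRing.residue_eq_zero_iff]
  show (AlgEquiv.ofBijective (Algebra.ofId K v.ResidueField) (residue_bijective v)).symm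
    (IsLocalRing.residue v.toValuationSubring a) = 0 ↔ _
  rw [EmbeddingLike.map_eq_zero_iff]

theorem exists_res {f : F} (hf : v.adicValuation f ≤ 1) :
    ∃ a : K, v.adicValuation (f - algebraMap K F a) < 1 := by
  set f' : v.toValuationSubring := ⟨f, (mem_iff v).mpr hf⟩
  refine ⟨resHom v f', ?_⟩
  have := (resHom_eq_zero_iff v (f' - algebraMap K _ (resHom v f'))).mp (by
    rw [map_sub, AlgHom.commutes]; simp)
  simpa using this

/-- Leading coefficient functional on elements with pole order `≤ n`. -/
noncomputable def lead (n : ℤ) : localL v n →ₗ[K] K where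
  toFun f := resHom v ⟨(f : F) * unif v ^ n, by
    rw [mem_iff, map_mul, val_unif_zpow, exp_neg, ← div_eq_mul_inv,
      div_le_one₀ (zero_lt_iff.mpr exp_ne_zero)]
    exact f.2⟩
  map_add' f g := by
    rw [← map_add]
    congr 1
    ext
    simp [add_mul]
  map_smul' c f := by
    rw [RingHom.id_apply, ← map_smul]
    congr 1
    ext
    simp [Algebra.smul_def, mul_assoc]

theorem lead_eq_zero_iff {n : ℤ} (f : localL v n) :
    lead v n f = 0 ↔ (f : F) ∈ localL v (n - 1) := by
  show resHom v _ = 0 ↔ _
  rw [resHom_eq_zero_iff, mem_localL]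
  show v.adicValuation ((f : F) * unif v ^ n) < 1 ↔ _
  rw [← lt_exp_iff_le, map_mul, val_unif_zpow, exp_neg, ← div_eq_mul_inv,
      div_lt_one₀ (zero_lt_iff.mpr exp_ne_zero)]

end rat

end Fermat.Agent.RRC
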