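import Fermat.Agent.RRC.Duality
import Fermat.Agent.RR.HOne

/-! Bridge: the class `RRC.FF` for function fields over algebraically closed fields (using helper25's
results). -/

set_option autoImplicit false

open AlgebraicCurve Module Fermat.Agent.FF

namespace Fermat.Agent.RRC

theorem ff_of_isFnField (K F : Type*) [Field K] [Field F] [Algebra K F] [IsAlgClosed K]
    [IsFnField K F] : FF K F where
  exists_divisor := (RR.hasPrincipalDivisors (K := K) (F := F)).exists_divisor
  deg_eq_one := RR.deg_eq_one
  nonempty_place := by
    obtain ⟨x, hx⟩ := RR.exists_transcendental (K := K) (F := F)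
    obtain ⟨v, -⟩ := RR.exists_ord_neg_of_transcendental hx
    exact ⟨v⟩
  riemann_bound := by
    obtain ⟨c, hc⟩ := RR.exists_defect_le (K := K) (F := F)
    refine ⟨c, fun D => ?_⟩
    have := hc D
    unfold RR.defect RR.ell at this
    omega

end Fermat.Agent.RRC
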