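import Fermat.Agent.RRC.RiemannRoch

/-! Weil differentials and Serre duality `h¹(D) = ℓ(W - D)`. -/

set_option autoImplicit false

open AlgebraicCurve WithZero IsLocalRing Module

namespace Fermat.Agent.RRC

variable {K F : Type*} [Field K] [Field F] [Algebra K F]

/-- multiplication by a function on repartitions -/
noncomputable def mulRep (f : F) : ↥(repartitions K F) →ₗ[K] ↥(repartitions K F) where
  toFun α := f • α
  map_add' := smul_add f
  map_smul' c α := by
    ext v
    show f * (c • (α.1 v)) = c • (f * α.1 v)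
    rw [mul_smul_comm]

theorem mulRep_apply (f : F) (α : ↥(repartitions K F)) (v : Place K F) :
    (mulRep f α).1 v = f * α.1 v := rfl

theorem mulRep_diag (f g : F) : mulRep (K := K) f (diag g) = diag (f * g) := rfl

/-- Weil differentials vanishing on `𝒜(D)+F` -/
noncomputable def Om (D : Divisor K F) : Submodule K (Dual K ↥(repartitions K F)) :=
  (WD D).dualAnnihilator

theorem mem_Om {D : Divisor K F} {ω : Dual K ↥(repartitions K F)} :
    ω ∈ Om D ↔ (∀ α ∈ repartitionsOf D, ω α = 0) ∧ ∀ f : F, ω (diag f) = 0 := by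
  rw [Om, Submodule.mem_dualAnnihilator]
  constructor
  · intro h
    exact ⟨fun α hα => h α (Submodule.mem_sup_left hα),
      fun f => h _ (Submodule.mem_sup_right (diag_mem_principal f))⟩
  · rintro ⟨h1, h2⟩ α hα
    obtain ⟨β, hβ, γ, hγ, rfl⟩ := Submodule.mem_sup.mp hα
    obtain ⟨f, rfl⟩ := mem_principal_iff.mp hγ
    rw [map_add, h1 β hβ, h2 f, add_zero]

theorem Om_anti {D E : Divisor K F} (h : D ≤ E) : Om E ≤ Om D :=
  Submodule.dualAnnihilator_anti (WD_mono h)

theorem finrank_Om [FF K F] (D : Divisor K F) : finrank K (Om D) = finrank K (H1 D) := by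
  have e : Dual K (↥(repartitions K F) ⧸ WD D) ≃ₗ[K] Om D :=
    (WD D).dualQuotEquivDualAnnihilator
  rw [← e.finrank_eq]
  exact Subspace.dual_finrank_eq

instance [FF K F] (D : Divisor K F) : Module.Finite K (Om D) := by
  have e : Dual K (↥(repartitions K F) ⧸ WD D) ≃ₗ[K] Om D :=
    (WD D).dualQuotEquivDualAnnihilator
  have : Module.Finite K (↥(repartitions K F) ⧸ WD D) := finite_H1 D
  exact Module.Finite.equiv e

/-- `f • ω` -/
noncomputable def smulW (f : F) (ω : Dual K ↥(repartitions K F)) : Dual K ↥(repartitions K F) :=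
  ω.comp (mulRep f)

theorem smulW_apply (f : F) (ω : Dual K ↥(repartitions K F)) (α : ↥(repartitions K F)) :
    smulW f ω α = ω (mulRep f α) := rfl

theorem smulW_smulW (f g : F) (ω : Dual K ↥(repartitions K F)) :
    smulW f (smulW g ω) = smulW (f * g) ω := by
  ext α
  rw [smulW_apply, smulW_apply, smulW_apply]
  congr 1
  ext v
  rw [mulRep_apply, mulRep_apply, mulRep_apply]
  ring

theorem smulW_one (ω : Dual K ↥(repartitions K F)) : smulW 1 ω = ω := by
  ext α
  rw [smulW_apply]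
  congr 1
  ext v
  rw [mulRep_apply, one_mul]

theorem smulW_add (f g : F) (ω : Dual K ↥(repartitions K F)) :
    smulW (f + g) ω = smulW f ω + smulW g ω := by
  ext α
  rw [LinearMap.add_apply, smulW_apply, smulW_apply, smulW_apply, ← map_add]
  congr 1
  ext v
  show (f + g) * α.1 v = f * α.1 v + g * α.1 v
  rw [add_mul]

theorem smulW_smul (c : K) (f : F) (ω : Dual K ↥(repartitions K F)) :
    smulW (c • f) ω = c • smulW f ω := by
  ext α
  rw [LinearMap.smul_apply, smulW_apply, smulW_apply, ← map_smul]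
  congr 1
  ext v
  show (c • f) * α.1 v = c • (f * α.1 v)
  rw [smul_mul_assoc]

theorem smulW_ne_zero {f : F} (hf : f ≠ 0) {ω : Dual K ↥(repartitions K F)} (hω : ω ≠ 0) :
    smulW f ω ≠ 0 := by
  intro h
  apply hω
  have := smulW_smulW f⁻¹ f ω
  rw [inv_mul_cancel₀ hf, smulW_one, h] at this
  rw [← this]
  ext α
  rfl

section

variable [HasPrincipalDivisors K F]

theorem mulRep_mem {D : Divisor K F} {f : F} (hf : f ≠ 0) {α : ↥(repartitions K F)}
    (hα : α ∈ repartitionsOf (D + div K f)) : mulRep f α ∈ repartitionsOf D := by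
  intro v
  have h := hα v
  show v.adicValuation (f * α.1 v) ≤ _
  rw [map_mul, val_eq_exp v hf]
  rw [Finsupp.add_apply, div_apply hf] at h
  calc exp (-v.ord f) * v.adicValuation (α.1 v)
      ≤ exp (-v.ord f) * exp (D v + v.ord f) := by gcongr
    _ = exp (D v) := by rw [← exp_add]; congr 1; ring

theorem smulW_mem_Om {D : Divisor K F} {f : F} (hf : f ≠ 0) {ω : Dual K ↥(repartitions K F)}
    (hω : ω ∈ Om D) : smulW f ω ∈ Om (D + div K f) := by
  rw [mem_Om] at hω ⊢
  exact ⟨fun α hα => hω.1 _ (mulRep_mem hf hα), fun g => by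
    rw [smulW_apply, mulRep_diag]; exact hω.2 _⟩

theorem smulW_mem_Om_iff {D : Divisor K F} {f : F} (hf : f ≠ 0)
    {ω : Dual K ↥(repartitions K F)} : smulW f ω ∈ Om (D + div K f) ↔ ω ∈ Om D := by
  refine ⟨fun h => ?_, smulW_mem_Om hf⟩
  have := smulW_mem_Om (inv_ne_zero hf) h
  rwa [smulW_smulW, inv_mul_cancel₀ hf, smulW_one, div_inv, add_assoc, add_neg_cancel,
    add_zero] at this

end

/-- the linear map `L(A - D) → Ω(D)`, `f ↦ f ω` for `ω ∈ Ω(A)` -/
noncomputable def mulOm [HasPrincipalDivisors K F] {A : Divisor K F}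
    {ω : Dual K ↥(repartitions K F)} (hω : ω ∈ Om A) (D : Divisor K F) :
    riemannRochSpace (A - D) →ₗ[K] Om D where
  toFun f := ⟨smulW (f : F) ω, by
    rcases eq_or_ne (f : F) 0 with h0 | h0
    · have : smulW (f : F) ω = 0 := by
        rw [h0]
        ext α
        rw [smulW_apply]
        have : mulRep (0 : F) α = 0 := by
          ext v; rw [mulRep_apply, zero_mul]; rfl
        rw [this, map_zero]; rfl
      rw [this]; exact Submodule.zero_mem _
    · refine Om_anti ?_ (smulW_mem_Om h0 hω)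
      have := (mem_L_iff h0).mp f.2
      rw [← sub_nonneg]
      have e : A + div K (f : F) - D = div K (f : F) + (A - D) := by abel
      rw [e]; exact this⟩
  map_add' f g := by
    ext1
    exact smulW_add _ _ _
  map_smul' c f := by
    ext1
    exact smulW_smul _ _ _

theorem mulOm_injective [HasPrincipalDivisors K F] {A : Divisor K F}
    {ω : Dual K ↥(repartitions K F)} (hω : ω ∈ Om A) (hω0 : ω ≠ 0) (D : Divisor K F) :
    Function.Injective (mulOm hω D) := by
  intro f g hfg
  by_contra hne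
  have h1 : (f : F) - g ≠ 0 := fun h => hne (Subtype.ext (sub_eq_zero.mp h))
  have h2 : smulW (f : F) ω = smulW (g : F) ω := congrArg Subtype.val hfg
  refine smulW_ne_zero h1 hω0 ?_
  have h3 : smulW (f : F) ω = smulW ((f : F) - g) ω + smulW (g : F) ω := by
    rw [← smulW_add, sub_add_cancel]
  rw [h2] at h3
  simpa using h3

theorem exists_ne_zero_of_finrank_pos {V : Type*} [AddCommGroup V] [Module K V]
    {T : Submodule K (Dual K V)} (h : 0 < finrank K T) : ∃ x ∈ T, x ≠ 0 := by
  by_contra hcon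
  push Not at hcon
  have : T = ⊥ := by
    rw [eq_bot_iff]
    intro x hx
    exact hcon x hx
  rw [this, finrank_bot] at h
  exact lt_irrefl _ h

section ff

variable [hFF : FF K F]

variable (K F) in
theorem exists_WD_top : ∃ D₀ : Divisor K F, WD D₀ = ⊤ := by
  obtain ⟨D₀, h⟩ := exists_max K F
  exact ⟨D₀, WD_max_eq_top h⟩

theorem finrank_H1_eq_of_L {D E : Divisor K F} (h1 : Divisor.degree D = Divisor.degree E)
    (h2 : finrank K (riemannRochSpace D) = finrank K (riemannRochSpace E)) :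
    finrank K (H1 D) = finrank K (H1 E) := by
  have h3 := riemannRoch D
  have h4 := riemannRoch E
  omega

theorem finrank_H1_add_div (D : Divisor K F) {f : F} (hf : f ≠ 0) :
    finrank K (H1 (D + div K f)) = finrank K (H1 D) :=
  finrank_H1_eq_of_L (by simp) (finrank_L_add_div D hf)

theorem finrank_H1_anti {D E : Divisor K F} (h : D ≤ E) : finrank K (H1 E) ≤ finrank K (H1 D) := by
  rw [← finrank_Om, ← finrank_Om]
  exact Submodule.finrank_mono (Om_anti h)

variable (K F) in
theorem exists_bound_H1 : ∃ c : ℤ, ∀ D : Divisor K F, c ≤ Divisor.degree D → finrank K (H1 D) = 0 := by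
  obtain ⟨D₀, h⟩ := exists_WD_top K F
  refine ⟨Divisor.degree D₀ + genusFF K F, fun D hD => ?_⟩
  have h1 := riemann_inequality (D - D₀)
  rw [map_sub] at h1
  have h2 : 0 < finrank K (riemannRochSpace (D - D₀)) := by omega
  obtain ⟨z, hz⟩ := Module.finrank_pos_iff_exists_ne_zero.mp h2
  have hz0 : (z : F) ≠ 0 := fun h => hz (Subtype.ext h)
  have h3 := (mem_L_iff hz0).mp z.2
  rw [← finrank_H1_add_div D hz0]
  have h4 : D₀ ≤ D + div K (z : F) := by
    rw [← sub_nonneg]
    have e : D + div K (z : F) - D₀ = div K (z : F) + (D - D₀) := by abel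
    rw [e]; exact h3
  have h5 : finrank K (H1 D₀) = 0 := by
    have : Subsingleton (H1 D₀) := by
      rw [Submodule.Quotient.subsingleton_iff]
      exact h
    exact finrank_zero_of_subsingleton
  have := finrank_H1_anti h4
  omega

theorem exists_degree_eq (n : ℤ) : ∃ D : Divisor K F, Divisor.degree D = n := by
  obtain ⟨v⟩ := hFF.nonempty_place
  exact ⟨Finsupp.single v n, degree_single' v n⟩

/-- the space of Weil differentials is one-dimensional over `F` -/
theorem exists_smulW_eq {A₁ A₂ : Divisor K F} {ω₁ ω₂ : Dual K ↥(repartitions K F)}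
    (h₁ : ω₁ ∈ Om A₁) (h₂ : ω₂ ∈ Om A₂) (h₁0 : ω₁ ≠ 0) (h₂0 : ω₂ ≠ 0) :
    ∃ f : F, f ≠ 0 ∧ ω₂ = smulW f ω₁ := by
  obtain ⟨B, hB⟩ := exists_degree_eq (K := K) (F := F)
    (max 1 (3 * genusFF K F - Divisor.degree A₁ - Divisor.degree A₂))
  set φ₁ := (Om (-B)).subtype.comp (mulOm h₁ (-B))
  set φ₂ := (Om (-B)).subtype.comp (mulOm h₂ (-B))
  have hr1 : finrank K (LinearMap.range φ₁) = finrank K (riemannRochSpace (A₁ - -B)) :=
    LinearMap.finrank_range_of_inj (Subtype.val_injective.comp (mulOm_injective h₁ h₁0 _))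
  have hr2 : finrank K (LinearMap.range φ₂) = finrank K (riemannRochSpace (A₂ - -B)) :=
    LinearMap.finrank_range_of_inj (Subtype.val_injective.comp (mulOm_injective h₂ h₂0 _))
  have hd1 := riemann_inequality (A₁ - -B)
  have hd2 := riemann_inequality (A₂ - -B)
  have hd3 := riemannRoch (-B)
  rw [map_sub, map_neg] at hd1 hd2
  rw [map_neg, L_eq_bot (by rw [map_neg]; omega), finrank_bot] at hd3
  have hOm := finrank_Om (-B)
  have hsum := Submodule.finrank_sup_add_finrank_inf_eq (LinearMap.range φ₁) (LinearMap.range φ₂)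
  have hle : finrank K ↥(LinearMap.range φ₁ ⊔ LinearMap.range φ₂) ≤ finrank K (Om (-B)) := by
    refine Submodule.finrank_mono (sup_le ?_ ?_)
    · rintro _ ⟨x, rfl⟩
      exact (mulOm h₁ (-B) x).2
    · rintro _ ⟨x, rfl⟩
      exact (mulOm h₂ (-B) x).2
  have hpos : 0 < finrank K ↥(LinearMap.range φ₁ ⊓ LinearMap.range φ₂) := by omega
  obtain ⟨x, hx, hx0'⟩ := exists_ne_zero_of_finrank_pos hpos
  obtain ⟨⟨f₁, hf₁⟩, ⟨f₂, hf₂⟩⟩ := Submodule.mem_inf.mp hx
  have hf10 : (f₁ : F) ≠ 0 := by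
    intro h
    have : f₁ = 0 := Subtype.ext h
    rw [this, map_zero] at hf₁
    exact hx0' hf₁.symm
  have hf20 : (f₂ : F) ≠ 0 := by
    intro h
    have : f₂ = 0 := Subtype.ext h
    rw [this, map_zero] at hf₂
    exact hx0' hf₂.symm
  have heq : smulW (f₁ : F) ω₁ = smulW (f₂ : F) ω₂ := hf₁.trans hf₂.symm
  refine ⟨(f₂ : F)⁻¹ * f₁, mul_ne_zero (inv_ne_zero hf20) hf10, ?_⟩
  rw [← smulW_smulW, heq, smulW_smulW, inv_mul_cancel₀ hf20, smulW_one]

variable (K F) in
theorem exists_omega : ∃ (A : Divisor K F) (ω : Dual K ↥(repartitions K F)), ω ∈ Om A ∧ ω ≠ 0 := by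
  obtain ⟨B, hB⟩ := exists_degree_eq (K := K) (F := F) (-2)
  have h1 := riemannRoch B
  have h2 : 0 < finrank K (Om B) := by
    rw [finrank_Om]; omega
  obtain ⟨x, hx, hx0⟩ := exists_ne_zero_of_finrank_pos h2
  exact ⟨B, x, hx, hx0⟩

omit hFF in
theorem mem_Om_sup {D E : Divisor K F} {ω : Dual K ↥(repartitions K F)} (h1 : ω ∈ Om D)
    (h2 : ω ∈ Om E) : ω ∈ Om (D ⊔ E) := by
  classical
  rw [mem_Om] at h1 h2 ⊢
  refine ⟨fun α hα => ?_, h1.2⟩
  -- split `α`
  set α₁ : Place K F → F := fun v => if D v ≤ E v then 0 else α.1 v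
  set α₂ : Place K F → F := fun v => if D v ≤ E v then α.1 v else 0
  have hα₁ : ∀ v, v.adicValuation (α₁ v) ≤ exp (D v) := by
    intro v
    simp only [α₁]
    split_ifs with h
    · simp
    · have := hα v
      rwa [Finsupp.sup_apply, sup_eq_left.mpr (not_le.mp h).le] at this
  have hα₂ : ∀ v, v.adicValuation (α₂ v) ≤ exp (E v) := by
    intro v
    simp only [α₂]
    split_ifs with h
    · have := hα v
      rwa [Finsupp.sup_apply, sup_eq_right.mpr h] at this
    · simp
  have e : α = ⟨α₁, mem_repartitions_of_forall_le_exp D α₁ hα₁⟩ +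
      ⟨α₂, mem_repartitions_of_forall_le_exp E α₂ hα₂⟩ := by
    ext v
    show α.1 v = α₁ v + α₂ v
    simp only [α₁, α₂]
    split_ifs <;> simp
  have h3 : (⟨α₁, mem_repartitions_of_forall_le_exp D α₁ hα₁⟩ : ↥(repartitions K F)) ∈
    repartitionsOf D := hα₁
  have h4 : (⟨α₂, mem_repartitions_of_forall_le_exp E α₂ hα₂⟩ : ↥(repartitions K F)) ∈
    repartitionsOf E := hα₂
  rw [e, map_add, h1.1 _ h3, h2.1 _ h4, add_zero]

theorem exists_max_divisor {ω : Dual K ↥(repartitions K F)} (hω0 : ω ≠ 0)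
    (hω : ∃ A : Divisor K F, ω ∈ Om A) :
    ∃ W : Divisor K F, ∀ D : Divisor K F, ω ∈ Om D ↔ D ≤ W := by
  obtain ⟨c, hc⟩ := exists_bound_H1 K F
  obtain ⟨A, hA⟩ := hω
  have hbdd : ∃ b : ℤ, ∀ z : ℤ,
      (∃ D : Divisor K F, ω ∈ Om D ∧ z = Divisor.degree D) → z ≤ b := by
    refine ⟨c, fun z ⟨D, hD, hz⟩ => ?_⟩
    by_contra hcon
    have h0 := hc D (by omega)
    rw [← finrank_Om, Submodule.finrank_eq_zero] at h0
    rw [h0, Submodule.mem_bot] at hD
    exact hω0 hD
  obtain ⟨m, ⟨W, hW, hWm⟩, hm⟩ := Int.exists_greatest_of_bdd hbdd ⟨_, A, hA, rfl⟩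
  refine ⟨W, fun D => ⟨fun hD => ?_, fun hD => Om_anti hD hW⟩⟩
  have h1 := mem_Om_sup hW hD
  have h2 := hm _ ⟨_, h1, rfl⟩
  have h3 := degree_mono (le_sup_left : W ≤ W ⊔ D)
  have h4 := eq_of_le_of_degree_eq (le_sup_left : W ≤ W ⊔ D) (by omega)
  rw [h4]
  exact le_sup_right

variable (K F) in
/-- **Serre duality**: there is a divisor `W` with `h¹(D) = ℓ(W - D)` for all `D`. -/
theorem exists_canonical : ∃ W : Divisor K F, ∀ D : Divisor K F,
    finrank K (H1 D) = finrank K (riemannRochSpace (W - D)) := by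
  obtain ⟨A, ω, hA, hω0⟩ := exists_omega K F
  obtain ⟨W, hW⟩ := exists_max_divisor hω0 ⟨A, hA⟩
  refine ⟨W, fun D => ?_⟩
  have hωW : ω ∈ Om W := (hW W).mpr le_rfl
  rw [← finrank_Om]
  symm
  apply LinearEquiv.finrank_eq
  refine LinearEquiv.ofBijective (mulOm hωW D) ⟨mulOm_injective hωW hω0 D, ?_⟩
  rintro ⟨ω', hω'⟩
  by_cases h0 : ω' = 0
  · refine ⟨0, ?_⟩
    rw [map_zero]
    exact Subtype.ext h0.symm
  · obtain ⟨f, hf0, hf⟩ := exists_smulW_eq hωW hω' hω0 h0
    have h1 : D - div K f ≤ W := by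
      rw [← hW]
      have h2 : D - div K f + div K f = D := sub_add_cancel _ _
      rw [← smulW_mem_Om_iff hf0, h2, ← hf]
      exact hω'
    refine ⟨⟨f, (mem_L_iff hf0).mpr ?_⟩, Subtype.ext hf.symm⟩
    rw [← sub_nonneg] at h1
    have e : div K f + (W - D) = W - (D - div K f) := by abel
    rw [e]; exact h1

theorem degree_canonical {W : Divisor K F} (hW : ∀ D : Divisor K F,
    finrank K (H1 D) = finrank K (riemannRochSpace (W - D))) :
    Divisor.degree W = 2 * genusFF K F - 2 ∧ finrank K (riemannRochSpace W) = genusFF K F := by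
  have h1 : finrank K (riemannRochSpace W) = genusFF K F := by
    have := hW 0
    rw [sub_zero] at this
    rw [← this]; rfl
  have h2 : finrank K (H1 W) = 1 := by
    rw [hW W, sub_self, finrank_L_zero]
  have h3 := riemannRoch W
  exact ⟨by omega, h1⟩

theorem finrank_H1_eq_zero {D : Divisor K F} (h : 2 * genusFF K F - 2 < Divisor.degree D) :
    finrank K (H1 D) = 0 := by
  obtain ⟨W, hW⟩ := exists_canonical K F
  obtain ⟨h1, -⟩ := degree_canonical hW
  rw [hW, L_eq_bot (by rw [map_sub]; omega), finrank_bot]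

theorem finrank_L_of_large {D : Divisor K F} (h : 2 * genusFF K F - 2 < Divisor.degree D) :
    (finrank K (riemannRochSpace D) : ℤ) = Divisor.degree D + 1 - genusFF K F := by
  have := riemannRoch D
  rw [finrank_H1_eq_zero h] at this
  omega

end ff

end Fermat.Agent.RRC
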