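import Mathlib

/-! Small linear algebra lemmas for Riemann-Roch. -/

set_option autoImplicit false

namespace Fermat.Agent.RRC

variable {K M : Type*} [Field K] [AddCommGroup M] [Module K M]

open Module

/-- If `A ≤ B` is the kernel of a functional on `B`, then `A` finite implies `B` finite. -/
theorem finite_of_functional {A B : Submodule K M} (hAB : A ≤ B) (φ : B →ₗ[K] K)
    (hφ : ∀ b : B, φ b = 0 ↔ (b : M) ∈ A) : Module.Finite K A ↔ Module.Finite K B := by
  have hker : LinearMap.ker φ = Submodule.comap B.subtype A := by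
    ext b
    rw [LinearMap.mem_ker, hφ, Submodule.mem_comap]; rfl
  constructor
  · intro hA
    have h1 : Module.Finite K (LinearMap.ker φ) := by
      rw [hker]
      exact Module.Finite.equiv (Submodule.comapSubtypeEquivOfLe hAB).symm
    have h2 : Module.Finite K (B ⧸ LinearMap.ker φ) :=
      Module.Finite.equiv φ.quotKerEquivRange.symm
    exact Module.Finite.of_submodule_quotient (LinearMap.ker φ)
  · intro hB
    exact Submodule.finiteDimensional_of_le hAB

theorem finrank_le_succ_of_functional {A B : Submodule K M} (hAB : A ≤ B) (φ : B →ₗ[K] K)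
    (hφ : ∀ b : B, φ b = 0 ↔ (b : M) ∈ A) [Module.Finite K B] :
    finrank K B ≤ finrank K A + 1 := by
  have hker : LinearMap.ker φ = Submodule.comap B.subtype A := by
    ext b
    rw [LinearMap.mem_ker, hφ, Submodule.mem_comap]; rfl
  have h1 : finrank K (LinearMap.ker φ) = finrank K A := by
    rw [hker]
    exact (Submodule.comapSubtypeEquivOfLe hAB).finrank_eq
  have h2 := φ.finrank_range_add_finrank_ker
  have h3 : finrank K (LinearMap.range φ) ≤ 1 := by
    simpa using Submodule.finrank_le (LinearMap.range φ)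
  omega

theorem finrank_eq_succ_of_functional {A B : Submodule K M} (hAB : A ≤ B) (φ : B →ₗ[K] K)
    (hφ : ∀ b : B, φ b = 0 ↔ (b : M) ∈ A) [Module.Finite K B] {b : B} (hb : φ b ≠ 0) :
    finrank K B = finrank K A + 1 := by
  have hker : LinearMap.ker φ = Submodule.comap B.subtype A := by
    ext b
    rw [LinearMap.mem_ker, hφ, Submodule.mem_comap]; rfl
  have h1 : finrank K (LinearMap.ker φ) = finrank K A := by
    rw [hker]
    exact (Submodule.comapSubtypeEquivOfLe hAB).finrank_eq
  have h2 := φ.finrank_range_add_finrank_ker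
  have h3 : LinearMap.range φ = ⊤ := by
    rw [LinearMap.range_eq_top]
    intro c
    exact ⟨(c / φ b) • b, by rw [map_smul, smul_eq_mul, div_mul_cancel₀ _ hb]⟩
  rw [h3, finrank_top, finrank_self] at h2
  omega

theorem finrank_quot_succ {A B : Submodule K M} {w : M} (hw : w ∉ A) (hB : B = A ⊔ (K ∙ w)) :
    (Module.Finite K (M ⧸ A) ↔ Module.Finite K (M ⧸ B)) ∧
      (Module.Finite K (M ⧸ B) → finrank K (M ⧸ A) = finrank K (M ⧸ B) + 1) := by
  have hAB : A ≤ B := hB ▸ le_sup_left
  have hmap : B.map A.mkQ = K ∙ (A.mkQ w) := by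
    rw [hB, Submodule.map_sup, Submodule.mkQ_map_self, bot_sup_eq, Submodule.map_span,
      Set.image_singleton]
  have hw0 : A.mkQ w ≠ 0 := by
    rw [Submodule.mkQ_apply, ne_eq, Submodule.Quotient.mk_eq_zero]
    exact hw
  have e : ((M ⧸ A) ⧸ B.map A.mkQ) ≃ₗ[K] M ⧸ B := Submodule.quotientQuotientEquivQuotient A B hAB
  have key : Module.Finite K (M ⧸ B) → Module.Finite K (M ⧸ A) := by
    intro h
    have h1 : Module.Finite K ((M ⧸ A) ⧸ B.map A.mkQ) := Module.Finite.equiv e.symm
    have h2 : Module.Finite K (B.map A.mkQ) := by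
      rw [hmap]; infer_instance
    exact Module.Finite.of_submodule_quotient (B.map A.mkQ)
  refine ⟨⟨fun h => ?_, key⟩, fun h => ?_⟩
  · exact Module.Finite.of_surjective (Submodule.mapQ A B LinearMap.id (by simpa using hAB))
      (by
        intro x
        obtain ⟨y, rfl⟩ := Submodule.Quotient.mk_surjective _ x
        exact ⟨Submodule.Quotient.mk y, by simp⟩)
  · have := key h
    have h1 := Submodule.finrank_quotient_add_finrank (B.map A.mkQ)
    rw [hmap, finrank_span_singleton hw0, ← hmap, e.finrank_eq] at h1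
    exact h1.symm

end Fermat.Agent.RRC
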