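import Fermat.Agent.RRC.Spaces

/-! Riemann-Roch (first form) for function fields with rational places. -/

set_option autoImplicit false

open AlgebraicCurve WithZero IsLocalRing Module

namespace Fermat.Agent.RRC

variable {K F : Type*} [Field K] [Field F] [Algebra K F]

section div

variable [HasPrincipalDivisors K F]

variable (K) in
open Classical in
/-- the divisor of a function (`0` for `f = 0`) -/
noncomputable def div (f : F) : Divisor K F :=
  if h : f ≠ 0 then (HasPrincipalDivisors.exists_divisor (K := K) f h).choose else 0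

theorem div_apply {f : F} (hf : f ≠ 0) (v : Place K F) : div K f v = v.ord f := by
  rw [div, dif_pos hf]
  exact (HasPrincipalDivisors.exists_divisor (K := K) f hf).choose_spec.1 v

@[simp] theorem degree_div (f : F) : Divisor.degree (div K f) = 0 := by
  rw [div]
  split_ifs with hf
  · exact (HasPrincipalDivisors.exists_divisor (K := K) f hf).choose_spec.2
  · simp

theorem div_mul {f g : F} (hf : f ≠ 0) (hg : g ≠ 0) : div K (f * g) = div K f + div K g := by
  ext v
  rw [div_apply (mul_ne_zero hf hg), Finsupp.add_apply, div_apply hf, div_apply hg,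
    v.ord_mul hf hg]

theorem div_inv (f : F) : div K f⁻¹ = -div K f := by
  rcases eq_or_ne f 0 with rfl | hf
  · simp [div]
  · ext v
    rw [div_apply (inv_ne_zero hf), Finsupp.neg_apply, div_apply hf, v.ord_inv]

@[simp] theorem div_algebraMap (a : K) : div K (algebraMap K F a) = 0 := by
  rcases eq_or_ne a 0 with rfl | ha
  · simp [div]
  · ext v
    rw [div_apply (by simpa using ha), ord_algebraMap]; rfl

theorem mem_L_iff {D : Divisor K F} {f : F} (hf : f ≠ 0) :
    f ∈ riemannRochSpace D ↔ 0 ≤ div K f + D := by
  rw [mem_riemannRochSpace_iff, Finsupp.le_def]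
  refine forall_congr' fun v => ?_
  rw [Finsupp.add_apply, div_apply hf, or_iff_right hf]
  simp only [Finsupp.coe_zero, Pi.zero_apply]
  omega

theorem isPrincipal_div {f : F} (hf : f ≠ 0) : Divisor.IsPrincipal (div K f) :=
  ⟨f, hf, fun v => div_apply hf v⟩

theorem isPrincipal_iff {D : Divisor K F} : Divisor.IsPrincipal D ↔ ∃ f : F, f ≠ 0 ∧ D = div K f := by
  constructor
  · rintro ⟨f, hf, h⟩
    exact ⟨f, hf, Finsupp.ext fun v => by rw [h v, div_apply hf]⟩
  · rintro ⟨f, hf, rfl⟩
    exact isPrincipal_div hf

theorem mul_mem_L {D : Divisor K F} {f g : F} (hf : f ∈ riemannRochSpace (D + div K g))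
    (hg : g ≠ 0) : f * g ∈ riemannRochSpace D := by
  rcases eq_or_ne f 0 with rfl | hf0
  · simp
  · rw [mem_L_iff (mul_ne_zero hf0 hg), div_mul hf0 hg]
    rw [mem_L_iff hf0] at hf
    have : div K f + div K g + D = div K f + (D + div K g) := by abel
    rw [this]
    exact hf

variable (K) in
/-- multiplication by `g` as an isomorphism `L(D + div g) ≃ L(D)` -/
noncomputable def mulEquivL (D : Divisor K F) {g : F} (hg : g ≠ 0) :
    riemannRochSpace (D + div K g) ≃ₗ[K] riemannRochSpace D where
  toFun f := ⟨f * g, mul_mem_L f.2 hg⟩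
  map_add' f f' := by ext; simp [add_mul]
  map_smul' c f := by ext; simp
  invFun f := ⟨f * g⁻¹, mul_mem_L (by
    rw [div_inv, add_assoc, add_neg_cancel, add_zero]; exact f.2) (inv_ne_zero hg)⟩
  left_inv f := by ext; simp [hg]
  right_inv f := by ext; simp [hg]

theorem finrank_L_add_div (D : Divisor K F) {g : F} (hg : g ≠ 0) :
    finrank K (riemannRochSpace (D + div K g)) = finrank K (riemannRochSpace D) :=
  (mulEquivL K D hg).finrank_eq

end div

section finite

variable [HasPrincipalDivisors K F] [RatPlaces K F]

theorem L_eq_bot {D : Divisor K F} (h : Divisor.degree D < 0) : riemannRochSpace D = ⊥ := by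
  rw [eq_bot_iff]
  intro f hf
  rw [Submodule.mem_bot]
  by_contra hf0
  rw [mem_L_iff hf0] at hf
  have := degree_nonneg hf
  rw [map_add, degree_div] at this
  omega

omit [HasPrincipalDivisors K F] in
theorem finite_L_add (D : Divisor K F) (v : Place K F) (n : ℕ) :
    Module.Finite K (riemannRochSpace D) →
      Module.Finite K (riemannRochSpace (D + Finsupp.single v (n : ℤ))) := by
  induction n with
  | zero =>
    intro h
    have e : D + Finsupp.single v ((0 : ℕ) : ℤ) = D := by simp
    rw [e]; exact h
  | succ n ih =>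
    intro h
    have h1 := (finite_L_step (D + Finsupp.single v (n : ℤ)) v).mp (ih h)
    rw [add_assoc, ← Finsupp.single_add] at h1
    exact_mod_cast h1

theorem finrank_L_add_le (D : Divisor K F) (v : Place K F) (n : ℕ)
    (h : Module.Finite K (riemannRochSpace D)) :
      finrank K (riemannRochSpace (D + Finsupp.single v (n : ℤ))) ≤
        finrank K (riemannRochSpace D) + n := by
  induction n with
  | zero =>
    have e : D + Finsupp.single v ((0 : ℕ) : ℤ) = D := by simp
    rw [e]; omega
  | succ n ih =>
    have h1 := finite_L_add D v (n + 1) h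
    have e : D + Finsupp.single v ((n + 1 : ℕ) : ℤ) =
        D + Finsupp.single v (n : ℤ) + Finsupp.single v (1 : ℤ) := by
      rw [add_assoc, ← Finsupp.single_add]; push_cast; rfl
    rw [e] at h1 ⊢
    have h2 := finrank_L_le_step (D + Finsupp.single v (n : ℤ)) v
    omega

variable [hne : Nonempty (Place K F)]

instance finite_L (D : Divisor K F) : Module.Finite K (riemannRochSpace D) := by
  obtain ⟨v⟩ := hne
  set n : ℕ := (Divisor.degree D + 1).toNat
  have h1 : Divisor.degree (D - Finsupp.single v (n : ℤ)) < 0 := by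
    rw [map_sub, degree_single']
    omega
  have h2 : Module.Finite K (riemannRochSpace (D - Finsupp.single v (n : ℤ))) := by
    rw [L_eq_bot h1]; infer_instance
  have := finite_L_add (D - Finsupp.single v (n : ℤ)) v n h2
  rwa [sub_add_cancel] at this

theorem finrank_L_le (D : Divisor K F) :
    (finrank K (riemannRochSpace D) : ℤ) ≤ max 0 (Divisor.degree D + 1) := by
  obtain ⟨v⟩ := hne
  set n : ℕ := (Divisor.degree D + 1).toNat
  have h1 : Divisor.degree (D - Finsupp.single v (n : ℤ)) < 0 := by
    rw [map_sub, degree_single']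
    omega
  have h2' : Module.Finite K (riemannRochSpace (D - Finsupp.single v (n : ℤ))) := by
    rw [L_eq_bot h1]; infer_instance
  have h2 := finrank_L_add_le (D - Finsupp.single v (n : ℤ)) v n h2'
  rw [sub_add_cancel, L_eq_bot h1, finrank_bot] at h2
  omega

/-- the constants are exactly `L(0)` -/
theorem mem_L_zero_iff {f : F} :
    f ∈ riemannRochSpace (0 : Divisor K F) ↔ ∃ a : K, f = algebraMap K F a := by
  constructor
  · intro hf
    obtain ⟨v⟩ := hne
    obtain ⟨a, ha⟩ := exists_res v (f := f) (by simpa using hf v)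
    refine ⟨a, ?_⟩
    by_contra hcon
    have h0 : f - algebraMap K F a ≠ 0 := sub_ne_zero.mpr hcon
    have h1 : f - algebraMap K F a ∈ riemannRochSpace (0 - Finsupp.single v (1 : ℤ)) := by
      intro w
      rcases eq_or_ne w v with rfl | hw
      · rw [← exp_zero, lt_exp_iff_le] at ha
        simpa using ha
      · have e : (0 - Finsupp.single v (1 : ℤ) : Divisor K F) w = 0 := by
          simp [Ne.symm hw]
        rw [e]
        refine (Valuation.map_sub _ _ _).trans (max_le ?_ ?_)
        · simpa using hf w
        · simpa using w.adicValuation_algebraMap_le_one a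
    rw [L_eq_bot (by rw [map_sub, degree_single', map_zero]; omega), Submodule.mem_bot] at h1
    exact h0 h1
  · rintro ⟨a, rfl⟩ v
    simpa using v.adicValuation_algebraMap_le_one a

theorem finrank_L_zero : finrank K (riemannRochSpace (0 : Divisor K F)) = 1 := by
  rw [finrank_eq_one_iff']
  refine ⟨⟨1, mem_L_zero_iff.mpr ⟨1, by simp⟩⟩, by simp [Subtype.ext_iff], fun w => ?_⟩
  obtain ⟨a, ha⟩ := mem_L_zero_iff.mp w.2
  exact ⟨a, Subtype.ext (by rw [Submodule.coe_smul, ha, Algebra.smul_def, mul_one])⟩

end finite

/-- Function fields of one variable for which all places are rational, and such that Riemann's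
inequality holds for some constant. -/
class FF (K F : Type*) [Field K] [Field F] [Algebra K F] : Prop
    extends HasPrincipalDivisors K F, RatPlaces K F where
  nonempty_place : Nonempty (Place K F)
  riemann_bound : ∃ C : ℤ, ∀ D : Divisor K F,
    Divisor.degree D - C ≤ finrank K (riemannRochSpace D)

section rr

variable [hFF : FF K F]

instance instNonemptyPlace : Nonempty (Place K F) := FF.nonempty_place

variable (K F) in
theorem exists_max : ∃ D₀ : Divisor K F, ∀ D : Divisor K F,
    Divisor.degree D - finrank K (riemannRochSpace D) ≤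
      Divisor.degree D₀ - finrank K (riemannRochSpace D₀) := by
  obtain ⟨C, hC⟩ := hFF.riemann_bound
  have hbdd : ∃ b : ℤ, ∀ z : ℤ,
      (∃ D : Divisor K F, z = Divisor.degree D - finrank K (riemannRochSpace D)) → z ≤ b :=
    ⟨C, fun z ⟨D, hD⟩ => by have := hC D; omega⟩
  obtain ⟨m, ⟨D₀, hD₀⟩, hm⟩ := Int.exists_greatest_of_bdd hbdd ⟨_, 0, rfl⟩
  exact ⟨D₀, fun D => hD₀ ▸ hm _ ⟨D, rfl⟩⟩

theorem WD_eq_of_max {D₀ : Divisor K F} (h : ∀ D : Divisor K F,
    Divisor.degree D - finrank K (riemannRochSpace D) ≤
      Divisor.degree D₀ - finrank K (riemannRochSpace D₀)) (v : Place K F) :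
    WD (D₀ + Finsupp.single v (1 : ℤ)) = WD D₀ ∧
      ∀ D : Divisor K F, Divisor.degree D - finrank K (riemannRochSpace D) ≤
        Divisor.degree (D₀ + Finsupp.single v (1 : ℤ)) -
          finrank K (riemannRochSpace (D₀ + Finsupp.single v (1 : ℤ))) := by
  have h1 := h (D₀ + Finsupp.single v (1 : ℤ))
  rw [map_add, degree_single'] at h1
  have h2 := finrank_L_le_step D₀ v
  have h3 : ¬ riemannRochSpace (D₀ + Finsupp.single v (1 : ℤ)) ≤ riemannRochSpace D₀ := by
    intro hle
    have := Submodule.finrank_mono hle
    omega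
  obtain ⟨f, hf, hf'⟩ := Set.not_subset.mp h3
  refine ⟨WD_step_of_ne D₀ v hf hf', fun D => ?_⟩
  have h4 := h D
  rw [map_add, degree_single']
  omega

theorem WD_eq_of_max' {D₀ : Divisor K F} (h : ∀ D : Divisor K F,
    Divisor.degree D - finrank K (riemannRochSpace D) ≤
      Divisor.degree D₀ - finrank K (riemannRochSpace D₀)) (v : Place K F) (n : ℕ) :
    WD (D₀ + Finsupp.single v (n : ℤ)) = WD D₀ ∧
      ∀ D : Divisor K F, Divisor.degree D - finrank K (riemannRochSpace D) ≤
        Divisor.degree (D₀ + Finsupp.single v (n : ℤ)) -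
          finrank K (riemannRochSpace (D₀ + Finsupp.single v (n : ℤ))) := by
  induction n with
  | zero =>
    have e : D₀ + Finsupp.single v ((0 : ℕ) : ℤ) = D₀ := by simp
    rw [e]; exact ⟨rfl, h⟩
  | succ n ih =>
    obtain ⟨h1, h2⟩ := WD_eq_of_max ih.2 v
    rw [add_assoc, ← Finsupp.single_add] at h1 h2
    push_cast
    exact ⟨h1.trans ih.1, h2⟩

theorem WD_eq_of_max'' {D₀ : Divisor K F} (h : ∀ D : Divisor K F,
    Divisor.degree D - finrank K (riemannRochSpace D) ≤
      Divisor.degree D₀ - finrank K (riemannRochSpace D₀)) (E : Divisor K F) (hE : 0 ≤ E) :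
    WD (D₀ + E) = WD D₀ := by
  induction E using Finsupp.induction generalizing D₀ with
  | zero => simp
  | single_add v n E hv _ ih =>
    have hn : 0 ≤ n := by
      have := hE v
      rw [Finsupp.add_apply, Finsupp.single_eq_same, Finsupp.notMem_support_iff.mp hv] at this
      simpa using this
    have hE' : 0 ≤ E := by
      intro w
      rcases eq_or_ne w v with rfl | hw
      · rw [Finsupp.notMem_support_iff.mp hv]; rfl
      · have := hE w
        rw [Finsupp.add_apply, Finsupp.single_eq_of_ne hw, zero_add] at this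
        exact this
    obtain ⟨m, rfl⟩ := Int.eq_ofNat_of_zero_le hn
    obtain ⟨h1, h2⟩ := WD_eq_of_max' h v m
    rw [← add_assoc, ih h2 hE']
    exact h1

/-- every repartition lies in some `𝒜(D)`, `D ≥ D₀` -/
theorem exists_mem_repOf (D₀ : Divisor K F) (α : ↥(repartitions K F)) :
    ∃ E : Divisor K F, 0 ≤ E ∧ α ∈ repartitionsOf (D₀ + E) := by
  classical
  have hfin := mem_repartitions_iff.mp α.2
  set s : Finset (Place K F) := hfin.toFinset ∪ D₀.support
  set e : Place K F → ℤ := fun v => max 0 (WithZero.log (v.adicValuation (α.1 v)) - D₀ v)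
  refine ⟨Finsupp.onFinset s (fun v => if v ∈ s then e v else 0) (fun v hv => by
    by_contra hcon
    simp [hcon] at hv), ?_, ?_⟩
  · intro v
    show (0 : ℤ) ≤ if v ∈ s then e v else 0
    split_ifs
    · exact le_max_left _ _
    · exact le_rfl
  · intro v
    rw [Finsupp.add_apply, Finsupp.onFinset_apply]
    rcases eq_or_ne (α.1 v) 0 with h0 | h0
    · show v.adicValuation (α.1 v) ≤ _
      rw [h0, map_zero]; exact zero_le
    · show v.adicValuation (α.1 v) ≤ _
      by_cases hv : v ∈ s
      · rw [if_pos hv, ← exp_log (v.adicValuation_ne_zero h0), exp_le_exp]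
        have := le_max_right 0 (WithZero.log (v.adicValuation (α.1 v)) - D₀ v)
        simp only [e]
        omega
      · rw [if_neg hv, add_zero]
        have h1 : v.adicValuation (α.1 v) ≤ 1 := by
          by_contra hcon
          exact hv (Finset.mem_union_left _ (hfin.mem_toFinset.mpr hcon))
        have h2 : D₀ v = 0 := by
          by_contra hcon
          exact hv (Finset.mem_union_right _ (Finsupp.mem_support_iff.mpr hcon))
        rw [h2, exp_zero]
        exact h1

theorem WD_max_eq_top {D₀ : Divisor K F} (h : ∀ D : Divisor K F,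
    Divisor.degree D - finrank K (riemannRochSpace D) ≤
      Divisor.degree D₀ - finrank K (riemannRochSpace D₀)) : WD D₀ = ⊤ := by
  rw [eq_top_iff]
  intro α _
  obtain ⟨E, hE, hα⟩ := exists_mem_repOf D₀ α
  rw [← WD_eq_of_max'' h E hE]
  exact Submodule.mem_sup_left hα

theorem fin2 (D : Divisor K F) : Fin2 D := by
  obtain ⟨D₀, h⟩ := exists_max K F
  have h1 : Fin2 D₀ := by
    refine ⟨inferInstance, ?_⟩
    have : Subsingleton (H1 D₀) := by
      rw [Submodule.Quotient.subsingleton_iff]
      exact WD_max_eq_top h
    infer_instance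
  exact (fin2_of h1).1

instance finite_H1 (D : Divisor K F) : Module.Finite K (H1 D) := (fin2 D).2

/-- **Riemann-Roch**, first form. -/
theorem riemannRoch (D : Divisor K F) :
    (finrank K (riemannRochSpace D) : ℤ) - finrank K (H1 D) =
      Divisor.degree D + 1 - genusFF K F := by
  have h := (fin2_of (E := D) (fin2 (0 : Divisor K F))).2
  unfold chi at h
  rw [finrank_L_zero, map_zero] at h
  have : (finrank K (H1 (0 : Divisor K F)) : ℤ) = genusFF K F := rfl
  omega

theorem riemann_inequality (D : Divisor K F) :
    Divisor.degree D + 1 - genusFF K F ≤ finrank K (riemannRochSpace D) := by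
  have := riemannRoch D
  omega

end rr

end Fermat.Agent.RRC
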