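import Fermat.Agent.RRC.Place
import Fermat.Agent.RRC.LinAlg

/-! Riemann-Roch spaces, adelic `H¹`, the one-place step, invariance of the Euler characteristic. -/

set_option autoImplicit false

open AlgebraicCurve WithZero IsLocalRing Module

namespace Fermat.Agent.RRC

variable {K F : Type*} [Field K] [Field F] [Algebra K F]

section rep

theorem finite_poles [HasPrincipalDivisors K F] (f : F) :
    {v : Place K F | ¬ v.adicValuation f ≤ 1}.Finite := by
  rcases eq_or_ne f 0 with rfl | hf
  · simp
  · obtain ⟨D, hD, -⟩ := HasPrincipalDivisors.exists_divisor (K := K) f hf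
    refine D.support.finite_toSet.subset fun v hv => ?_
    rw [Finset.mem_coe, Finsupp.mem_support_iff, hD v]
    have := (v.not_adicValuation_le_one_iff).mp hv
    omega

theorem mem_repartitions_iff [HasPrincipalDivisors K F] {α : Place K F → F} :
    α ∈ repartitions K F ↔ {v : Place K F | ¬ v.adicValuation (α v) ≤ 1}.Finite := by
  refine ⟨fun h => ?_, mem_repartitions_of_finite⟩
  induction h using Algebra.adjoin_induction with
  | mem x hx => exact hx
  | algebraMap f => exact finite_poles f
  | add x y _ _ hx hy =>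
    refine (hx.union hy).subset fun v hv => ?_
    by_contra hcon
    simp only [Set.mem_union, Set.mem_ofPred_eq, not_or, not_not] at hcon
    exact hv ((Valuation.map_add _ _ _).trans (max_le hcon.1 hcon.2))
  | mul x y _ _ hx hy =>
    refine (hx.union hy).subset fun v hv => ?_
    by_contra hcon
    simp only [Set.mem_union, Set.mem_ofPred_eq, not_or, not_not] at hcon
    refine hv ?_
    rw [Pi.mul_apply, map_mul]
    exact mul_le_one' hcon.1 hcon.2

open Classical in
/-- repartition supported at a single place -/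
noncomputable def delta (v : Place K F) (f : F) : ↥(repartitions K F) :=
  ⟨Function.update 0 v f, mem_repartitions_of_finite <| (Set.finite_singleton v).subset fun w hw => by
    by_contra hne
    rw [Set.mem_singleton_iff] at hne
    rw [Set.mem_ofPred_eq, Function.update_of_ne hne] at hw
    simp at hw⟩

theorem delta_same (v : Place K F) (f : F) : (delta v f : Place K F → F) v = f := by
  classical
  simp [delta]

theorem delta_ne (v : Place K F) (f : F) {w : Place K F} (h : w ≠ v) :
    (delta v f : Place K F → F) w = 0 := by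
  classical
  simp [delta, Function.update_of_ne h]

/-- the diagonal embedding -/
noncomputable def diag (f : F) : ↥(repartitions K F) := algebraMap F ↥(repartitions K F) f

@[simp] theorem diag_apply (f : F) (v : Place K F) :
    ((diag f : ↥(repartitions K F)) : Place K F → F) v = f := rfl

theorem diag_mem_principal (f : F) : diag f ∈ principalRepartitions K F :=
  mem_principalRepartitions_iff.mpr ⟨f, rfl⟩

theorem mem_principal_iff {α : ↥(repartitions K F)} :
    α ∈ principalRepartitions K F ↔ ∃ f : F, α = diag f := by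
  rw [mem_principalRepartitions_iff]
  constructor
  · rintro ⟨f, hf⟩
    exact ⟨f, Subtype.ext hf⟩
  · rintro ⟨f, rfl⟩
    exact ⟨f, rfl⟩

/-- `W(D) = 𝒜(D) + F`. -/
abbrev WD (D : Divisor K F) : Submodule K ↥(repartitions K F) :=
  repartitionsOf D ⊔ principalRepartitions K F

theorem mem_WD {D : Divisor K F} {α : ↥(repartitions K F)} :
    α ∈ WD D ↔ ∃ f : F, α - diag f ∈ repartitionsOf D := by
  rw [Submodule.mem_sup]
  constructor
  · rintro ⟨β, hβ, γ, hγ, rfl⟩
    obtain ⟨f, rfl⟩ := mem_principal_iff.mp hγ
    exact ⟨f, by simpa using hβ⟩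
  · rintro ⟨f, hf⟩
    exact ⟨_, hf, _, diag_mem_principal f, by simp⟩

theorem diag_mem_repartitionsOf {D : Divisor K F} {f : F} :
    diag f ∈ repartitionsOf D ↔ f ∈ riemannRochSpace D := Iff.rfl

theorem mem_repOf {D : Divisor K F} {α : ↥(repartitions K F)} :
    α ∈ repartitionsOf D ↔ ∀ v, (α : Place K F → F) v ∈ localL v (D v) := Iff.rfl

theorem mem_RR {D : Divisor K F} {f : F} :
    f ∈ riemannRochSpace D ↔ ∀ v : Place K F, f ∈ localL v (D v) := Iff.rfl

theorem riemannRochSpace_mono {D E : Divisor K F} (h : D ≤ E) :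
    riemannRochSpace D ≤ riemannRochSpace E :=
  fun _ hf v => (hf v).trans (exp_le_exp.mpr (Finsupp.le_def.mp h v))

theorem WD_mono {D E : Divisor K F} (h : D ≤ E) : WD D ≤ WD E :=
  sup_le_sup_right (repartitionsOf_mono h) _

end rep

section step

variable (D : Divisor K F) (v : Place K F)

theorem addSingle_same : (D + Finsupp.single v (1 : ℤ) : Divisor K F) v = D v + 1 := by
  simp

theorem addSingle_ne {w : Place K F} (h : w ≠ v) :
    (D + Finsupp.single v (1 : ℤ) : Divisor K F) w = D w := by
  simp [Ne.symm h]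

theorem le_addSingle : D ≤ D + Finsupp.single v (1 : ℤ) := by
  refine le_add_of_nonneg_right ?_
  rw [Finsupp.single_nonneg]
  norm_num

variable [RatPlaces K F]

/-- leading coefficient at `v` on `L(D+v)` -/
noncomputable def leadL : riemannRochSpace (D + Finsupp.single v (1 : ℤ)) →ₗ[K] K :=
  (lead v (D v + 1)).comp
    (LinearMap.codRestrict _ (Submodule.subtype _) (fun f => by
      have := f.2 v
      rw [addSingle_same] at this
      exact this))

theorem leadL_eq_zero_iff (f : riemannRochSpace (D + Finsupp.single v (1 : ℤ))) :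
    leadL D v f = 0 ↔ (f : F) ∈ riemannRochSpace D := by
  show lead v (D v + 1) _ = 0 ↔ _
  rw [lead_eq_zero_iff]
  show (f : F) ∈ localL v (D v + 1 - 1) ↔ _
  rw [add_sub_cancel_right]
  constructor
  · intro h w
    rcases eq_or_ne w v with rfl | hw
    · exact h
    · have := f.2 w
      rwa [addSingle_ne D v hw] at this
  · intro h
    exact h v

/-- leading coefficient at `v` on `𝒜(D+v)` -/
noncomputable def leadA : repartitionsOf (D + Finsupp.single v (1 : ℤ)) →ₗ[K] K :=
  (lead v (D v + 1)).comp
    (LinearMap.codRestrict (localL v (D v + 1))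
      ((LinearMap.proj v : (Place K F → F) →ₗ[K] F).comp
        (((repartitions K F).restrictScalars K).val.toLinearMap.comp (Submodule.subtype _)))
      (fun α => by
        have := α.2 v
        rw [addSingle_same] at this
        exact this))

theorem leadA_apply (α : repartitionsOf (D + Finsupp.single v (1 : ℤ)))
    (h : ((α : ↥(repartitions K F)) : Place K F → F) v ∈ localL v (D v + 1)) :
    leadA D v α = lead v (D v + 1) ⟨((α : ↥(repartitions K F)) : Place K F → F) v, h⟩ := rfl

theorem leadA_eq_zero_iff (α : repartitionsOf (D + Finsupp.single v (1 : ℤ))) :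
    leadA D v α = 0 ↔ (α : ↥(repartitions K F)) ∈ repartitionsOf D := by
  rw [leadA_apply _ _ _ (by
        have := α.2 v
        rw [addSingle_same] at this
        exact this), lead_eq_zero_iff]
  show ((α : ↥(repartitions K F)) : Place K F → F) v ∈ localL v (D v + 1 - 1) ↔ _
  rw [add_sub_cancel_right]
  constructor
  · intro h w
    rcases eq_or_ne w v with rfl | hw
    · exact h
    · have := α.2 w
      rwa [addSingle_ne D v hw] at this
  · intro h
    exact h v

theorem leadA_diag (f : riemannRochSpace (D + Finsupp.single v (1 : ℤ))) :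
    leadA D v ⟨diag (f : F), diag_mem_repartitionsOf.mpr f.2⟩ = leadL D v f := rfl

theorem finite_L_step :
    Module.Finite K (riemannRochSpace D) ↔
      Module.Finite K (riemannRochSpace (D + Finsupp.single v (1 : ℤ))) :=
  finite_of_functional (riemannRochSpace_mono (le_addSingle D v)) (leadL D v)
    (leadL_eq_zero_iff D v)

theorem finrank_L_le_step [Module.Finite K (riemannRochSpace (D + Finsupp.single v (1 : ℤ)))] :
    finrank K (riemannRochSpace (D + Finsupp.single v (1 : ℤ))) ≤
      finrank K (riemannRochSpace D) + 1 :=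
  finrank_le_succ_of_functional (riemannRochSpace_mono (le_addSingle D v)) (leadL D v)
    (leadL_eq_zero_iff D v)

theorem finrank_L_step_of_ne [Module.Finite K (riemannRochSpace (D + Finsupp.single v (1 : ℤ)))]
    {f : F} (hf : f ∈ riemannRochSpace (D + Finsupp.single v (1 : ℤ)))
    (hf' : f ∉ riemannRochSpace D) :
    finrank K (riemannRochSpace (D + Finsupp.single v (1 : ℤ))) =
      finrank K (riemannRochSpace D) + 1 :=
  finrank_eq_succ_of_functional (riemannRochSpace_mono (le_addSingle D v)) (leadL D v)
    (leadL_eq_zero_iff D v) (b := ⟨f, hf⟩) (by rw [ne_eq, leadL_eq_zero_iff]; exact hf')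

theorem WD_step_of_ne {f : F} (hf : f ∈ riemannRochSpace (D + Finsupp.single v (1 : ℤ)))
    (hf' : f ∉ riemannRochSpace D) : WD (D + Finsupp.single v (1 : ℤ)) = WD D := by
  refine le_antisymm ?_ (WD_mono (le_addSingle D v))
  refine sup_le ?_ le_sup_right
  intro α hα
  have hf0 : leadL D v ⟨f, hf⟩ ≠ 0 := by rw [ne_eq, leadL_eq_zero_iff]; exact hf'
  set c : K := leadA D v ⟨α, hα⟩ / leadL D v ⟨f, hf⟩
  rw [mem_WD]
  refine ⟨c • f, ?_⟩
  have hcf : c • f ∈ riemannRochSpace (D + Finsupp.single v (1 : ℤ)) :=
    Submodule.smul_mem _ c hf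
  set a1 : repartitionsOf (D + Finsupp.single v (1 : ℤ)) := ⟨α, hα⟩ with ha1
  set a2 : repartitionsOf (D + Finsupp.single v (1 : ℤ)) :=
    ⟨diag (c • f), diag_mem_repartitionsOf.mpr hcf⟩ with ha2
  have h1 : leadA D v (a1 - a2) = 0 := by
    have h2 : leadA D v a2 = c • leadL D v ⟨f, hf⟩ := by
      rw [← map_smul]; rfl
    have h3 : leadA D v (a1 - a2) = leadA D v a1 - leadA D v a2 := (leadA D v).map_sub a1 a2
    rw [h3, h2, smul_eq_mul, div_mul_cancel₀ _ hf0, sub_self]
  rw [leadA_eq_zero_iff] at h1
  exact h1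

/-- the standard generator of `𝒜(D+v)/𝒜(D)` -/
noncomputable def genA : ↥(repartitions K F) := delta v (unif v ^ (-(D v + 1)))

omit [RatPlaces K F] in
theorem genA_mem : genA D v ∈ repartitionsOf (D + Finsupp.single v (1 : ℤ)) := by
  intro w
  rcases eq_or_ne w v with rfl | hw
  · show w.adicValuation ((delta w (unif w ^ (-(D w + 1))) : ↥(repartitions K F)).1 w) ≤ _
    rw [delta_same, val_unif_zpow, addSingle_same, neg_neg]
  · show w.adicValuation ((delta v (unif v ^ (-(D v + 1))) : ↥(repartitions K F)).1 w) ≤ _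
    rw [delta_ne v _ hw, map_zero]
    exact zero_le

omit [RatPlaces K F] in
theorem genA_notMem : genA D v ∉ repartitionsOf D := by
  intro h
  have := h v
  change v.adicValuation ((delta v (unif v ^ (-(D v + 1))) : ↥(repartitions K F)).1 v) ≤ _ at this
  rw [delta_same, val_unif_zpow, exp_le_exp] at this
  omega

theorem repOf_step : repartitionsOf (D + Finsupp.single v (1 : ℤ)) =
    repartitionsOf D ⊔ (K ∙ genA D v) := by
  refine le_antisymm ?_ (sup_le (repartitionsOf_mono (le_addSingle D v)) ?_)
  · intro α hα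
    have hg0 : leadA D v ⟨genA D v, genA_mem D v⟩ ≠ 0 := by
      rw [ne_eq, leadA_eq_zero_iff]; exact genA_notMem D v
    set c : K := leadA D v ⟨α, hα⟩ / leadA D v ⟨genA D v, genA_mem D v⟩
    set a1 : repartitionsOf (D + Finsupp.single v (1 : ℤ)) := ⟨α, hα⟩ with ha1
    set a2 : repartitionsOf (D + Finsupp.single v (1 : ℤ)) := ⟨genA D v, genA_mem D v⟩ with ha2
    have h1 : leadA D v (a1 - c • a2) = 0 := by
      have h3 : leadA D v (a1 - c • a2) = leadA D v a1 - leadA D v (c • a2) :=
        (leadA D v).map_sub a1 (c • a2)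
      rw [h3, map_smul, smul_eq_mul, div_mul_cancel₀ _ hg0, sub_self]
    rw [leadA_eq_zero_iff] at h1
    rw [Submodule.mem_sup]
    refine ⟨_, h1, c • genA D v, Submodule.smul_mem _ _ (Submodule.mem_span_singleton_self _), ?_⟩
    show α - c • genA D v + c • genA D v = α
    rw [sub_add_cancel]
  · rw [Submodule.span_singleton_le_iff_mem]
    exact genA_mem D v

theorem WD_step : WD (D + Finsupp.single v (1 : ℤ)) = WD D ⊔ (K ∙ genA D v) := by
  rw [WD, repOf_step, sup_assoc, sup_comm (K ∙ genA D v), ← sup_assoc]

omit [RatPlaces K F] in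
theorem genA_notMem_WD (h : riemannRochSpace (D + Finsupp.single v (1 : ℤ)) = riemannRochSpace D) :
    genA D v ∉ WD D := by
  intro hmem
  obtain ⟨f, hf⟩ := mem_WD.mp hmem
  have hf1 : f ∈ riemannRochSpace (D + Finsupp.single v (1 : ℤ)) := by
    rw [← diag_mem_repartitionsOf]
    have h1 := Submodule.sub_mem _ (genA_mem D v) (repartitionsOf_mono (le_addSingle D v) hf)
    simpa using h1
  rw [h] at hf1
  refine genA_notMem D v ?_
  have := Submodule.add_mem _ hf (diag_mem_repartitionsOf.mpr hf1)
  simpa using this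

/-- The key step: Euler characteristic increases by exactly one. -/
theorem step :
    ((Module.Finite K (riemannRochSpace D) ∧ Module.Finite K (H1 D)) ↔
      (Module.Finite K (riemannRochSpace (D + Finsupp.single v (1 : ℤ))) ∧
        Module.Finite K (H1 (D + Finsupp.single v (1 : ℤ))))) ∧
    ((Module.Finite K (riemannRochSpace D) ∧ Module.Finite K (H1 D)) →
      (finrank K (riemannRochSpace (D + Finsupp.single v (1 : ℤ))) : ℤ) -
        finrank K (H1 (D + Finsupp.single v (1 : ℤ))) =
      (finrank K (riemannRochSpace D) : ℤ) - finrank K (H1 D) + 1) := by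
  by_cases h : riemannRochSpace (D + Finsupp.single v (1 : ℤ)) ≤ riemannRochSpace D
  · have heq := le_antisymm h (riemannRochSpace_mono (le_addSingle D v))
    obtain ⟨h1, h2⟩ := finrank_quot_succ (genA_notMem_WD D v heq) (WD_step D v)
    change (Module.Finite K (H1 D) ↔ Module.Finite K (H1 (D + Finsupp.single v (1 : ℤ)))) at h1
    change (Module.Finite K (H1 (D + Finsupp.single v (1 : ℤ)))) →
      finrank K (H1 D) = finrank K (H1 (D + Finsupp.single v (1 : ℤ))) + 1 at h2
    refine ⟨by rw [heq, h1], fun hfin => ?_⟩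
    have := h2 (h1.mp hfin.2)
    rw [heq, this]
    push_cast
    ring
  · obtain ⟨f, hf, hf'⟩ := Set.not_subset.mp h
    have hW := WD_step_of_ne D v hf hf'
    have hH : H1 (D + Finsupp.single v (1 : ℤ)) = H1 D := by
      show (↥(repartitions K F) ⧸ WD (D + Finsupp.single v (1 : ℤ))) = (↥(repartitions K F) ⧸ WD D)
      rw [hW]
    have e : H1 (D + Finsupp.single v (1 : ℤ)) ≃ₗ[K] H1 D := Submodule.quotEquivOfEq _ _ hW
    refine ⟨?_, fun hfin => ?_⟩
    · rw [finite_L_step D v]
      refine and_congr_right fun _ => ⟨fun _ => Module.Finite.equiv e.symm, fun _ => Module.Finite.equiv e⟩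
    · have : Module.Finite K (riemannRochSpace (D + Finsupp.single v (1 : ℤ))) :=
        (finite_L_step D v).mp hfin.1
      rw [finrank_L_step_of_ne D v hf hf', e.finrank_eq]
      push_cast
      ring

end step

section degree

variable [RatPlaces K F]

@[simp] theorem degree_single' (v : Place K F) (n : ℤ) :
    Divisor.degree (Finsupp.single v n : Divisor K F) = n := by
  rw [Divisor.degree_single, RatPlaces.deg_eq_one v]
  simp

theorem degree_eq_sum (D : Divisor K F) : Divisor.degree D = D.sum fun _ n => n := by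
  show Finsupp.liftAddHom _ D = _
  rw [Finsupp.liftAddHom_apply]
  refine Finsupp.sum_congr fun v _ => ?_
  simp [RatPlaces.deg_eq_one v]

theorem degree_nonneg {D : Divisor K F} (h : 0 ≤ D) : 0 ≤ Divisor.degree D := by
  rw [degree_eq_sum]
  exact Finset.sum_nonneg fun v _ => h v

theorem degree_mono {D E : Divisor K F} (h : D ≤ E) : Divisor.degree D ≤ Divisor.degree E := by
  have := degree_nonneg (sub_nonneg.mpr h)
  rw [map_sub] at this
  omega

theorem eq_of_le_of_degree_eq {D E : Divisor K F} (h : D ≤ E)
    (hdeg : Divisor.degree D = Divisor.degree E) : D = E := by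
  have h1 : 0 ≤ E - D := sub_nonneg.mpr h
  have h2 : Divisor.degree (E - D) = 0 := by rw [map_sub, hdeg, sub_self]
  rw [degree_eq_sum, Finsupp.sum, Finset.sum_eq_zero_iff_of_nonneg fun v _ => h1 v] at h2
  have h3 : E - D = 0 := by
    ext v
    by_cases hv : v ∈ (E - D).support
    · exact h2 v hv
    · exact Finsupp.notMem_support_iff.mp hv
  exact (sub_eq_zero.mp h3).symm

end degree

section euler

variable [RatPlaces K F]

/-- `D` has finite-dimensional `L(D)` and `H¹(D)`. -/
def Fin2 (D : Divisor K F) : Prop :=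
  Module.Finite K (riemannRochSpace D) ∧ Module.Finite K (H1 D)

/-- Euler characteristic minus degree -/
noncomputable def chi (D : Divisor K F) : ℤ :=
  (finrank K (riemannRochSpace D) : ℤ) - finrank K (H1 D) - Divisor.degree D

theorem chi_step (D : Divisor K F) (v : Place K F) :
    (Fin2 D ↔ Fin2 (D + Finsupp.single v (1 : ℤ))) ∧
      (Fin2 D → chi (D + Finsupp.single v (1 : ℤ)) = chi D) := by
  obtain ⟨h1, h2⟩ := step D v
  refine ⟨h1, fun h => ?_⟩
  have := h2 h
  unfold chi
  rw [map_add, degree_single']
  omega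

theorem chi_single (v : Place K F) (n : ℤ) (D : Divisor K F) :
    (Fin2 D ↔ Fin2 (D + Finsupp.single v n)) ∧
      (Fin2 D → chi (D + Finsupp.single v n) = chi D) := by
  induction n using Int.induction_on with
  | zero => simp
  | succ i ih =>
    obtain ⟨h1, h2⟩ := chi_step (D + Finsupp.single v (i : ℤ)) v
    rw [add_assoc, ← Finsupp.single_add] at h1 h2
    exact ⟨ih.1.trans h1, fun h => (h2 (ih.1.mp h)).trans (ih.2 h)⟩
  | pred i ih =>
    obtain ⟨h1, h2⟩ := chi_step (D + Finsupp.single v (-(i : ℤ) - 1)) v
    rw [add_assoc, ← Finsupp.single_add, sub_add_cancel] at h1 h2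
    refine ⟨ih.1.trans h1.symm, fun h => ?_⟩
    have h3 := h1.mpr (ih.1.mp h)
    rw [← h2 h3]
    exact ih.2 h

theorem chi_add (D E : Divisor K F) :
    (Fin2 D ↔ Fin2 (D + E)) ∧ (Fin2 D → chi (D + E) = chi D) := by
  induction E using Finsupp.induction generalizing D with
  | zero => simp
  | single_add v n E _ _ ih =>
    obtain ⟨h1, h2⟩ := chi_single v n D
    obtain ⟨h3, h4⟩ := ih (D + Finsupp.single v n)
    rw [add_assoc] at h3 h4
    exact ⟨h1.trans h3, fun h => (h4 (h1.mp h)).trans (h2 h)⟩

theorem fin2_of {D E : Divisor K F} (h : Fin2 D) : Fin2 E ∧ chi E = chi D := by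
  obtain ⟨h1, h2⟩ := chi_add D (E - D)
  rw [add_sub_cancel] at h1 h2
  exact ⟨h1.mp h, h2 h⟩

end euler

end Fermat.Agent.RRC
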